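import Fermat.Agent.CubicDescentRank.Places
import Fermat.Agent.HindrySilverman.Irreducible
import Fermat.Agent.NeronSpecialisation.AlgClosedClasses
import Fermat.Agent.TwoDescent.IsogenyBound

/-!
# The rank of a surface without reducible fibres

For a discriminant with simple zeros the cubic has no root and `x - θ` has even order at every place
of the cubic field, so the classes modulo two embed in the two-torsion of its Jacobian.
-/

set_option autoImplicit false
set_option linter.unusedSectionVars false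
set_option linter.style.haveILetI false

noncomputable section

universe u

open Polynomial AlgebraicCurve WeierstrassCurve FA.Curve FA.ModField FA.FunctionFieldMW
open FA.FullTwoTorsionRank (linPrime weightAt weightAt_some)
open FA.NeronSpecialisation (genW genW_isElliptic)
open FA.SzpiroLine FA.HindrySilverman
open scoped Classical

namespace FA.CubicDescentRank

variable {k : Type u} [Field k] [IsAlgClosed k] [CharZero k] {A B : k[X]} {m : ℕ}

theorem three_ne_zero_ratFunc : (3 : RatFunc k) ≠ 0 := fun e => three_ne_zero (α := k)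
  ((algebraMap k (RatFunc k)).injective (by rw [map_ofNat, map_zero]; exact e))

/-- **A simple discriminant leaves the cubic without roots.** -/
theorem irreducible_of_squarefree (hm : 0 < m) (hA : A.natDegree ≤ 4 * m) (hB : B.natDegree ≤ 6 * m)
    (hsq : Squarefree (A ^ 3 - B ^ 2)) (hdeg : 12 * m ≤ (A ^ 3 - B ^ 2).natDegree + 1) :
    Irreducible (cubicPoly (pCoef k A) (qCoef k B)) := by
  refine irreducible_cubicPoly fun r hr => ?_
  obtain ⟨P, rfl⟩ : ∃ P, algebraMap k[X] (RatFunc k) P = r := IsIntegrallyClosed.isIntegral_iff.1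
    ⟨X ^ 3 + Polynomial.C (-27 * A) * X + Polynomial.C (-54 * B), by monicity!, by
      simpa [pCoef, qCoef] using hr⟩
  have hP : P ^ 3 + -27 * A * P + -54 * B = 0 := by
    apply RatFunc.algebraMap_injective k
    rw [map_add, map_add, map_pow, map_mul _ _ P, map_zero]
    exact hr
  haveI : NeZero ((27 : ℕ) : k) := ⟨by norm_num⟩
  haveI : NeZero ((54 : ℕ) : k) := ⟨by norm_num⟩
  have h27 : (-27 * A).natDegree ≤ 4 * m := by
    exact_mod_cast (natDegree_num_mul 27 A).le.trans hA
  have h54 : (-54 * B).natDegree ≤ 6 * m := by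
    exact_mod_cast (natDegree_num_mul 54 B).le.trans hB
  have hPdeg : P.natDegree ≤ 2 * m := by
    by_contra hlt
    have e : P ^ 3 = -(-27 * A * P + -54 * B) := by linear_combination hP
    have h := congrArg natDegree e
    rw [natDegree_pow, natDegree_neg] at h
    have h1 := natDegree_add_le (-27 * A * P) (-54 * B)
    have h2 := natDegree_mul_le (p := -27 * A) (q := P)
    omega
  set g := 3 * P ^ 2 + -27 * A with hg
  set h := 108 * A - 3 * P ^ 2 with hh
  have hD : Polynomial.C (78732 : k) * (A ^ 3 - B ^ 2) = g ^ 2 * h := by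
    rw [hg, hh, map_ofNat]
    linear_combination (27 * (P ^ 3 + -27 * A * P) + 1458 * B) * hP
  have h0 : (78732 : k) ≠ 0 := by norm_num
  have hgu : IsUnit g := by
    refine hsq g ?_
    rw [← (Polynomial.isUnit_C.2 (Ne.isUnit h0)).dvd_mul_left, hD]
    exact ⟨h, by ring⟩
  have hgdeg := natDegree_eq_zero_of_isUnit hgu
  have hd := congrArg natDegree hD
  rw [natDegree_C_mul h0] at hd
  have h1 := natDegree_mul_le (p := g ^ 2) (q := h)
  have h2 : (g ^ 2).natDegree = 0 := by rw [natDegree_pow, hgdeg, mul_zero]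
  have h3 : h.natDegree ≤ 4 * m := by
    refine (natDegree_sub_le _ _).trans (max_le ?_ ?_)
    · refine natDegree_mul_le.trans ?_
      rw [show (108 : k[X]) = Polynomial.C 108 from (map_ofNat C 108).symm, natDegree_C]
      omega
    · refine natDegree_mul_le.trans ?_
      rw [show (3 : k[X]) = Polynomial.C 3 from (map_ofNat C 3).symm, natDegree_C, natDegree_pow]
      omega
  omega

variable [Fact (Irreducible (cubicPoly (pCoef k A) (qCoef k B)))]

/-- **The orders of `x - θ` are even.** -/
theorem even_ord_sub_theta (hA : A.natDegree ≤ 4 * m) (hB : B.natDegree ≤ 6 * m)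
    (hsq : Squarefree (A ^ 3 - B ^ 2)) (hdeg : 12 * m ≤ (A ^ 3 - B ^ 2).natDegree + 1)
    {x y : RatFunc k} (h : y ^ 2 = x ^ 3 + pCoef k A * x + qCoef k B)
    (w : Place k (cubicField (pCoef k A) (qCoef k B))) :
    Even (w.ord (algebraMap (RatFunc k) (cubicField (pCoef k A) (qCoef k B)) x -
      theta (pCoef k A) (qCoef k B))) := by
  set L := cubicField (pCoef k A) (qCoef k B)
  set θ : L := theta (pCoef k A) (qCoef k B)
  set φ := algebraMap (RatFunc k) L
  have hθ : θ ^ 3 + φ (pCoef k A) * θ + φ (qCoef k B) = 0 :=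
    theta_equation (pCoef k A) (qCoef k B)
  obtain ⟨o, e, he, -, -, hord⟩ := exists_below (isFunctionField_cubicField (A := A) (B := B)) w
  have hθ' : AtLeast w (e * (2 * twoShift m o)) θ := atLeast_theta he hord hA hB
  haveI : NeZero ((27 : ℕ) : k) := ⟨by norm_num⟩
  haveI : NeZero ((54 : ℕ) : k) := ⟨by norm_num⟩
  have hp : AtLeast w (e * (4 * twoShift m o)) (φ (pCoef k A)) := by
    have h' := atLeast_coef (L := L) (m := m) he hord (g := -27 * A) (d := 4)
      (by exact_mod_cast (natDegree_num_mul 27 A).le.trans hA)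
    exact h'.mono (le_of_eq (by push_cast; ring))
  set c := twoShift m o with hc
  set a := φ x - θ with ha
  set b := a ^ 2 + 3 * θ * a + (3 * θ ^ 2 + φ (pCoef k A)) with hb
  have ha0 : a ≠ 0 := sub_theta_ne_zero x
  have hab : a * b = φ y ^ 2 := by
    rw [← map_pow, h, map_add, map_add, map_pow, map_mul, ha, hb]
    linear_combination -hθ
  have h3θ : ∀ {d : ℤ} {z : L}, AtLeast w d z → AtLeast w d (3 * z) := fun {d z} hz => by
    have := hz.smul (3 : k)
    rwa [map_ofNat] at this
  have hsum : b ≠ 0 → Even (w.ord a + w.ord b) := fun hb0 => by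
    have hy0 : φ y ≠ 0 := fun e' => mul_ne_zero ha0 hb0 (by rw [hab, e', zero_pow two_ne_zero])
    rw [← w.ord_mul ha0 hb0, hab, place_ord_pow]
    exact even_two_mul _
  have hfθ : AtLeast w (e * (4 * c)) (3 * θ ^ 2 + φ (pCoef k A)) :=
    ((h3θ (atLeast_pow hθ' 2)).mono (by push_cast; linarith)).add hp
  rcases lt_trichotomy (w.ord a) (e * (2 * c)) with hlt | heq | hgt
  · -- a pole beyond the shift
    have hrest : AtLeast w (w.ord (a ^ 2) + 1) (3 * θ * a + (3 * θ ^ 2 + φ (pCoef k A))) := by
      rw [place_ord_pow]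
      refine AtLeast.add (((h3θ hθ').mul (atLeast_ord a)).mono ?_) (hfθ.mono ?_) <;>
        push_cast <;> nlinarith
    obtain ⟨hne, hord2⟩ := ord_add_eq_left (pow_ne_zero 2 ha0) hrest
    rw [← add_assoc] at hne hord2
    have := hsum hne
    rw [hb, hord2, place_ord_pow, show w.ord a + ((2 : ℕ) : ℤ) * w.ord a = w.ord a + 2 * w.ord a by
      push_cast; rfl] at this
    exact (Int.even_add.1 this).2 (even_two_mul _)
  · rw [heq, show e * (2 * c) = 2 * (e * c) by ring]
    exact even_two_mul _
  -- a zero beyond the shift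
  have hfirst : AtLeast w (e * (4 * c) + 1) (a ^ 2 + 3 * θ * a) := by
    have h1 : AtLeast w (e * (2 * c) + 1) a := Or.inr (by omega)
    refine AtLeast.add ((atLeast_pow h1 2).mono ?_) (((h3θ hθ').mul h1).mono ?_) <;>
      push_cast <;> nlinarith
  by_cases hf : AtLeast w (e * (4 * c) + 1) (3 * θ ^ 2 + φ (pCoef k A))
  swap
  · rw [AtLeast, not_or, not_le] at hf
    have hfo : w.ord (3 * θ ^ 2 + φ (pCoef k A)) = e * (4 * c) := by
      have := (atLeast_iff hf.1).1 hfθ
      omega
    obtain ⟨hne, hord2⟩ := ord_add_eq_left hf.1 (hfirst.mono (by rw [hfo]) )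
    rw [add_comm] at hne hord2
    have := hsum hne
    rw [hb, hord2, hfo] at this
    exact (Int.even_add.1 this).2 ⟨e * (2 * c), by ring⟩
  exfalso
  -- the point would reduce to the singular point
  have h1 : AtLeast w (e * (2 * c) + 1) a := Or.inr (by omega)
  have hb' : AtLeast w (e * (4 * c) + 1) b := hfirst.add hf
  have hx : AtLeast w (e * (2 * c)) (φ x) := by
    have := (h1.mono (m := e * (2 * c)) (by omega)).add hθ'
    rwa [ha, sub_add_cancel] at this
  have hy : AtLeast w (e * (3 * c + 1)) (φ y) := by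
    refine atLeast_jump he hord ?_
    rcases eq_or_ne (φ y) 0 with e' | e'
    · exact Or.inl e'
    · refine Or.inr ?_
      have h2 := h1.mul hb'
      rw [hab, atLeast_iff (pow_ne_zero 2 e'), place_ord_pow] at h2
      push_cast at h2
      linarith
  have hphi : AtLeast w (e * (4 * c + 1)) (φ (3 * x ^ 2 + pCoef k A)) := by
    refine atLeast_jump he hord ?_
    rw [map_add, map_mul, map_pow, map_ofNat,
      show 3 * φ x ^ 2 + φ (pCoef k A) = (3 * θ ^ 2 + φ (pCoef k A)) + (3 * (2 * θ * a) + 3 * a ^ 2) by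
        rw [ha]; ring]
    refine hf.add (AtLeast.add (h3θ (((hθ'.add hθ').mul h1).mono ?_ |> fun z => by
      rwa [← two_mul] at z)) (h3θ ((atLeast_pow h1 2).mono ?_))) <;> push_cast <;> nlinarith
  have hD0 : A ^ 3 - B ^ 2 ≠ 0 := hsq.ne_zero
  set Φ := φ (3 * x ^ 2 + pCoef k A) with hΦ
  set X₀ := φ x with hX₀
  have hkey : algebraMap k L 78732 * φ (algebraMap k[X] (RatFunc k) (A ^ 3 - B ^ 2)) =
      Φ ^ 2 * (algebraMap k L 9 * X₀ ^ 2 - algebraMap k L 4 * Φ) +
        φ y ^ 2 * (algebraMap k L 54 * (X₀ * Φ) - algebraMap k L 108 * X₀ ^ 3) -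
          algebraMap k L 27 * (φ y ^ 2 * φ y ^ 2) := by
    rw [← map_pow φ y, h, hΦ, hX₀]
    simp only [pCoef, qCoef, map_add, map_sub, map_mul, map_pow, map_ofNat, map_neg]
    ring
  have hbig : AtLeast w (e * (12 * c + 2))
      (algebraMap k L 78732 * φ (algebraMap k[X] (RatFunc k) (A ^ 3 - B ^ 2))) := by
    rw [hkey]
    have hΦ0 : AtLeast w (e * (4 * c)) Φ := hphi.mono (by nlinarith)
    have hy0 : AtLeast w (e * (3 * c)) (φ y) := hy.mono (by nlinarith)
    have hX2 := (atLeast_pow hx 2).smul (9 : k)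
    have hX3 := (atLeast_pow hx 3).smul (108 : k)
    refine AtLeast.sub (AtLeast.add (((atLeast_pow hphi 2).mul
      ((hX2.mono (m := e * (4 * c)) (by push_cast; linarith)).sub (hΦ0.smul (4 : k)))).mono ?_)
      (((atLeast_pow hy 2).mul ((((hx.mul hΦ0).smul (54 : k)).mono (m := e * (6 * c))
        (by linarith)).sub (hX3.mono (by push_cast; linarith)))).mono ?_))
      ((((atLeast_pow hy 2).mul (atLeast_pow hy0 2)).smul (27 : k)).mono ?_) <;>
      push_cast <;> linarith
  have hC : algebraMap k L 78732 ≠ 0 := (_root_.map_ne_zero _).2 (by norm_num)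
  have hne := RatFunc.algebraMap_ne_zero (K := k) hD0
  rw [atLeast_iff (mul_ne_zero hC ((_root_.map_ne_zero _).2 hne)),
    w.ord_mul hC ((_root_.map_ne_zero _).2 hne), place_ord_algebraMap, zero_add, hord _ hne] at hbig
  have hbig' : 12 * c + 2 ≤ -weightAt o (algebraMap k[X] (RatFunc k) (A ^ 3 - B ^ 2)) :=
    le_of_mul_le_mul_left hbig he
  have hd1 := discOrd_le_one hsq hdeg o
  cases o with
  | some t =>
    rw [weightAt_some, neg_neg, FA.FunctionFieldRank.ordAt_algebraMap, hc] at hbig'
    simp only [discOrd, twoShift] at hd1 hbig'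
    rw [FA.FunctionFieldRank.rootMultiplicity_eq_expAt hD0] at hd1
    simp only [linPrime] at hbig'
    omega
  | none =>
    simp only [weightAt, Option.map_none, FA.FunctionFieldRank.placeWeight,
      RatFunc.intDegree_polynomial, hc, twoShift] at hbig'
    simp only [discOrd] at hd1
    omega

/-- The cubic form of the curve. -/
theorem genW_eq_cubicCurve :
    genW (shortW A B) = cubicCurve 0 (pCoef k A) (qCoef k B) := by
  ext <;> simp [shortW, pCoef, qCoef, WeierstrassCurve.map]

/-- The classes of the functions with even orders embed in the two-torsion of the Jacobian. -/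
theorem exists_classMap {F : Type u} [Field F] [Algebra k F] (hF : IsFunctionField k F) :
    ∃ cl : {z : F // z ≠ 0 ∧ ∀ v : Place k F, Even (v.ord z)} → Pic0.torsion k F 2,
      ∀ z z', cl z = cl z' → sqFun F z.1 = sqFun F z'.1 := by
  let half : F → Divisor k F := fun z => (divOf hF z).mapRange (fun n => n / 2) (by simp)
  have htwo : ∀ z : {z : F // z ≠ 0 ∧ ∀ v : Place k F, Even (v.ord z)},
      half z.1 + half z.1 = divOf hF z.1 := fun z => Finsupp.ext fun v => by
    obtain ⟨j, hj⟩ := z.2.2 v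
    simp only [half, Finsupp.add_apply, Finsupp.mapRange_apply, divOf_apply, hj]
    omega
  have hdeg : ∀ z : {z : F // z ≠ 0 ∧ ∀ v : Place k F, Even (v.ord z)},
      half z.1 ∈ Divisor.degZero (K := k) (F := F) := fun z => by
    rw [Divisor.mem_degZero]
    have h := congrArg Divisor.degree (htwo z)
    rw [map_add, degree_divOf hF] at h
    omega
  refine ⟨fun z => ⟨Pic0.mk ⟨half z.1, hdeg z⟩, ?_⟩, fun z z' e => ?_⟩
  · rw [Pic0.mem_torsion, Nat.cast_two, two_zsmul, ← Pic0.mk_add]
    refine (QuotientAddGroup.eq_zero_iff _).2 (AddSubgroup.mem_addSubgroupOf.2 ?_)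
    exact Divisor.mem_principal.2 ⟨z.1, z.2.1, fun v => by
      rw [AddSubgroup.coe_add, htwo z]; exact divOf_apply hF z.1 v⟩
  obtain ⟨g, hg, hge⟩ := Divisor.mem_principal.1 (AddSubgroup.mem_addSubgroupOf.1
    (QuotientAddGroup.eq.1 (congrArg Subtype.val e :
      Pic0.mk ⟨half z.1, hdeg z⟩ = Pic0.mk ⟨half z'.1, hdeg z'⟩)))
  have hz := z.2.1
  have hz' := z'.2.1
  set t := z.1 * g * g * z'.1⁻¹ with ht
  have ht0 : ∀ v : Place k F, v.ord t = 0 := fun v => by
    rw [ht, v.ord_mul (mul_ne_zero (mul_ne_zero hz hg) hg) (inv_ne_zero hz'),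
      v.ord_mul (mul_ne_zero hz hg) hg, v.ord_mul hz hg, v.ord_inv]
    have h1 := hge v
    simp only [AddSubgroup.coe_add, NegMemClass.coe_neg, Finsupp.add_apply,
      Finsupp.neg_apply] at h1
    have h2 : half z.1 v + half z.1 v = v.ord z.1 := by
      rw [← Finsupp.add_apply, htwo z, divOf_apply]
    have h3 : half z'.1 v + half z'.1 v = v.ord z'.1 := by
      rw [← Finsupp.add_apply, htwo z', divOf_apply]
    omega
  obtain ⟨s, hs⟩ := FA.NeronSpecialisation.isSquare_of_ord_eq_zero hF ht0
  have hmul : z.1 * z'.1 = (s * z'.1 / g) * (s * z'.1 / g) := by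
    rw [div_mul_div_comm, show s * z'.1 * (s * z'.1) = s * s * z'.1 * z'.1 by ring, ← hs, ht]
    field_simp
  have hs0 : s * z'.1 / g ≠ 0 := fun h => mul_ne_zero hz hz' (by rw [hmul, h, mul_zero])
  refine FA.NeronSpecialisation.eq_of_sqFun_add_eq_zero ?_
  rw [← isParity_sqFun hz hz', hmul, isParity_sqFun hs0 hs0, sqClass_add_self]

/-- **The doubles have index at most `2 ^ (2 g)`.** -/
theorem index_doubles_le (hA : A.natDegree ≤ 4 * m) (hB : B.natDegree ≤ 6 * m)
    (hsq : Squarefree (A ^ 3 - B ^ 2)) (hdeg : 12 * m ≤ (A ^ 3 - B ^ 2).natDegree + 1)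
    [(cubicCurve 0 (pCoef k A) (qCoef k B)).IsElliptic] :
    (nsmulAddMonoidHom (α := (cubicCurve 0 (pCoef k A) (qCoef k B)).toAffine.Point) 2).range.index ≠ 0 ∧
      (nsmulAddMonoidHom (α := (cubicCurve 0 (pCoef k A) (qCoef k B)).toAffine.Point) 2).range.index ≤
        2 ^ (2 * genus k (cubicField (pCoef k A) (qCoef k B))) := by
  set L := cubicField (pCoef k A) (qCoef k B)
  have hF : IsFunctionField k L := isFunctionField_cubicField
  have h2 : (2 : RatFunc k) ≠ 0 := FA.NeronSpecialisation.two_ne_zero_ratFunc (two_ne_zero (α := k))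
  set G := (cubicCurve 0 (pCoef k A) (qCoef k B)).toAffine.Point
  set D := (nsmulAddMonoidHom (α := G) 2).range
  obtain ⟨cl, hcl⟩ := exists_classMap hF
  have hrep : ∀ P : G, ∃ z : {z : L // z ≠ 0 ∧ ∀ v : Place k L, Even (v.ord z)},
      thetaClass three_ne_zero_ratFunc P = sqFun L z.1 := fun P => by
    rcases P with _ | ⟨x, y, h⟩
    · refine ⟨⟨1, one_ne_zero, fun v => ⟨0, by simp⟩⟩, (map_zero _).trans ?_⟩
      have h1 := isParity_sqFun (L := L) (x := 1) (y := 1) one_ne_zero one_ne_zero
      rw [mul_one, sqClass_add_self] at h1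
      exact h1.symm
    · refine ⟨⟨_, sub_theta_ne_zero x, even_ord_sub_theta hA hB hsq hdeg (y := y) ?_⟩,
        thetaClass_some _ h⟩
      have e := cubicCurve_equation.1 h.1
      linear_combination e
  choose z hz using hrep
  let F : G ⧸ D → Pic0.torsion k L 2 := fun q => cl (z q.out)
  have hinj : Function.Injective F := fun q q' hqq => by
    rw [← Quotient.out_eq q, ← Quotient.out_eq q']
    refine QuotientAddGroup.eq.2 (exists_half_of_thetaClass h2 three_ne_zero_ratFunc
      (P := -q.out + q'.out) ?_)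
    rw [map_add, map_neg, hz, hz, hcl _ _ hqq]
    exact (neg_add_eq_zero (a := sqFun L (z q'.out).1) (b := sqFun L (z q'.out).1)).2 rfl
  have hcard := FA.PicTors.natCard_torsion_of_functionField FA.PicTors.countComplex hF 2 two_ne_zero
  haveI : Finite (Pic0.torsion k L 2) := Nat.finite_of_card_ne_zero (by rw [hcard]; positivity)
  haveI : Finite (G ⧸ D) := Finite.of_injective F hinj
  exact ⟨Nat.card_pos.ne', (Nat.card_le_card_of_injective F hinj).trans hcard.le⟩

omit [Fact (Irreducible (cubicPoly (pCoef k A) (qCoef k B)))]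

/-- **The rank is at most `12 m - 4`.** -/
theorem rank_le (hm : 0 < m) (hA : A.natDegree ≤ 4 * m) (hB : B.natDegree ≤ 6 * m)
    (hsq : Squarefree (A ^ 3 - B ^ 2)) (hdeg : 12 * m ≤ (A ^ 3 - B ^ 2).natDegree + 1) :
    AddGroup.FG (genW (shortW A B)).toAffine.Point ∧
      Module.finrank ℤ (genW (shortW A B)).toAffine.Point + 4 ≤ 12 * m := by
  have hS := semistable_of_squarefree hm hA hB hsq hdeg
  haveI := genW_isElliptic (shortW_Δ_ne hS)
  haveI hfin : Module.Finite ℤ (genW (shortW A B)).toAffine.Point :=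
    FA.LangNeron.fg_genW (nonSplit_shortW hS)
  haveI hfg : AddGroup.FG (genW (shortW A B)).toAffine.Point :=
    Module.Finite.iff_addGroup_fg.mp hfin
  refine ⟨hfg, ?_⟩
  haveI : Fact (Irreducible (cubicPoly (pCoef k A) (qCoef k B))) :=
    ⟨irreducible_of_squarefree hm hA hB hsq hdeg⟩
  haveI : (cubicCurve 0 (pCoef k A) (qCoef k B)).IsElliptic :=
    genW_eq_cubicCurve (A := A) (B := B) ▸ (inferInstance : (genW (shortW A B)).IsElliptic)
  obtain ⟨hi0, hi⟩ := index_doubles_le hA hB hsq hdeg
  rw [← genW_eq_cubicCurve (A := A) (B := B)] at hi0 hi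
  haveI : AddGroup.FG (AddCommGroup.torsion (genW (shortW A B)).toAffine.Point) := by
    obtain ⟨r, ⟨φ⟩⟩ := FA.MordellWeil.exists_equiv_torsion_prod (genW (shortW A B)).toAffine.Point
    exact AddGroup.fg_of_surjective (f := (AddMonoidHom.fst _ _).comp φ.toAddMonoidHom)
      (Prod.fst_surjective.comp φ.surjective)
  haveI : Finite (AddCommGroup.torsion (genW (shortW A B)).toAffine.Point) :=
    AddCommGroup.finite_of_fg_isAddTorsion _ fun x => by
      obtain ⟨x, hx⟩ := x
      exact AddSubmonoid.isOfFinAddOrder_coe.1 ((AddCommGroup.mem_torsion _).1 hx)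
  haveI : Nonempty {t : AddCommGroup.torsion (genW (shortW A B)).toAffine.Point // 2 • t = 0} :=
    ⟨⟨0, nsmul_zero 2⟩⟩
  have h := (Nat.le_mul_of_pos_left _ Nat.card_pos).trans
    ((FA.TwoDescent.card_two_mul_le_index hi0).trans hi)
  have h' := (Nat.pow_le_pow_iff_right one_lt_two).1 h
  have hg := genus_le (m := m) hA hB
  omega

end FA.CubicDescentRank
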