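import Fermat.Agent.FunctionFieldMW.CubicCurve
import Fermat.Agent.FunctionFieldRank.Descent
import Mathlib.RingTheory.AdjoinRoot
import Mathlib.Algebra.Polynomial.SpecificDegree

/-!
# Two-descent through the cubic field of `y² = x³ + p x + q`

The square class of `x - θ` in `K(θ)` is additive on the points, and trivial only on doubles: if
`x - θ = (c₀ + c₁ θ + c₂ θ²)²` then `c₁ / c₂` is the abscissa of a half.
-/

set_option autoImplicit false
set_option linter.unusedSectionVars false
set_option linter.style.haveILetI false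

noncomputable section

open WeierstrassCurve Polynomial
open FA.FunctionFieldMW
open FA.FunctionFieldRank (pointMap pointMap_some classHom classFun classFun_some)
open FA.CM.Seven (twoCurve)
open scoped Classical

namespace FA.CubicDescentRank

variable {K : Type*} [Field K]

/-- `X³ + p X + q`. -/
def cubicPoly (p q : K) : K[X] := X ^ 3 + Polynomial.C p * X + Polynomial.C q

theorem cubicPoly_monic (p q : K) : (cubicPoly p q).Monic := by
  unfold cubicPoly
  monicity!

theorem cubicPoly_natDegree (p q : K) : (cubicPoly p q).natDegree = 3 := by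
  unfold cubicPoly
  compute_degree!

/-- A cubic without roots is irreducible. -/
theorem irreducible_cubicPoly {p q : K} (h : ∀ r : K, r ^ 3 + p * r + q ≠ 0) :
    Irreducible (cubicPoly p q) := by
  refine ((cubicPoly_monic p q).irreducible_iff_roots_eq_zero_of_degree_le_three
    (by rw [cubicPoly_natDegree]; norm_num) (by rw [cubicPoly_natDegree])).2 ?_
  refine Multiset.eq_zero_of_forall_notMem fun r hr => h r ?_
  simpa [cubicPoly] using (mem_roots'.1 hr).2

variable (p q : K) [Fact (Irreducible (cubicPoly p q))]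

/-- The cubic field. -/
abbrev cubicField : Type _ := AdjoinRoot (cubicPoly p q)

/-- Its generator. -/
def theta : cubicField p q := AdjoinRoot.root (cubicPoly p q)

instance finite_cubicField : Module.Finite K (cubicField p q) :=
  (AdjoinRoot.powerBasis (cubicPoly_monic p q).ne_zero).finite

theorem finrank_cubicField : Module.finrank K (cubicField p q) = 3 := by
  rw [(AdjoinRoot.powerBasis (cubicPoly_monic p q).ne_zero).finrank, AdjoinRoot.powerBasis_dim,
    cubicPoly_natDegree]

theorem no_root (r : K) : r ^ 3 + p * r + q ≠ 0 := fun h => by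
  have hr : (cubicPoly p q).IsRoot r := by simpa [cubicPoly] using h
  have := natDegree_eq_of_degree_eq (degree_eq_one_of_irreducible_of_root
    (Fact.out : Irreducible (cubicPoly p q)) hr ▸ (Polynomial.degree_X (R := K)).symm :
      (cubicPoly p q).degree = (X : K[X]).degree)
  rw [cubicPoly_natDegree, natDegree_X] at this
  omega

theorem theta_equation : theta p q ^ 3 + algebraMap K _ p * theta p q + algebraMap K _ q = 0 := by
  have h : aeval (theta p q) (X ^ 3 + Polynomial.C p * X + Polynomial.C q : K[X]) = 0 := by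
    show aeval (AdjoinRoot.root (cubicPoly p q)) (cubicPoly p q) = 0
    rw [AdjoinRoot.aeval_eq, AdjoinRoot.mk_self]
  simpa only [map_add, map_mul, map_pow, aeval_X, aeval_C] using h

/-- `1, θ, θ²` are independent. -/
theorem coords_zero {a b c : K}
    (h : algebraMap K (cubicField p q) a + algebraMap K _ b * theta p q +
      algebraMap K _ c * theta p q ^ 2 = 0) : a = 0 ∧ b = 0 ∧ c = 0 := by
  have hm : AdjoinRoot.mk (cubicPoly p q)
      (Polynomial.C a + Polynomial.C b * X + Polynomial.C c * X ^ 2) = 0 := by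
    simpa [theta, AdjoinRoot.mk_C, AdjoinRoot.mk_X] using h
  have h0 : Polynomial.C a + Polynomial.C b * X + Polynomial.C c * X ^ 2 = 0 :=
    eq_zero_of_dvd_of_natDegree_lt (AdjoinRoot.mk_eq_zero.1 hm)
      (by rw [cubicPoly_natDegree]; exact lt_of_le_of_lt (by compute_degree) (by norm_num : 2 < 3))
  have e0 := congrArg (fun r : K[X] => r.coeff 0) h0
  have e1 := congrArg (fun r : K[X] => r.coeff 1) h0
  have e2 := congrArg (fun r : K[X] => r.coeff 2) h0
  simp [coeff_X, coeff_C, coeff_X_pow] at e0 e1 e2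
  exact ⟨e0, e1, e2⟩

/-- Every element has coordinates on `1, θ, θ²`. -/
theorem exists_coords (w : cubicField p q) : ∃ a b c : K,
    w = algebraMap K _ a + algebraMap K _ b * theta p q + algebraMap K _ c * theta p q ^ 2 := by
  obtain ⟨r, rfl⟩ := AdjoinRoot.mk_surjective (g := cubicPoly p q) w
  set s := r %ₘ cubicPoly p q with hs
  have hlt : s.natDegree < 3 := by
    have := natDegree_modByMonic_lt r (cubicPoly_monic p q)
      (fun e => by simpa [e] using cubicPoly_natDegree p q)
    rwa [cubicPoly_natDegree] at this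
  have e : AdjoinRoot.mk (cubicPoly p q) r = AdjoinRoot.mk (cubicPoly p q) s := by
    conv_lhs => rw [← modByMonic_add_div r (cubicPoly p q)]
    rw [map_add, map_mul, AdjoinRoot.mk_self, zero_mul, add_zero]
  refine ⟨s.coeff 0, s.coeff 1, s.coeff 2, ?_⟩
  rw [e]
  conv_lhs => rw [s.as_sum_range' 3 hlt]
  simp [Finset.sum_range_succ, theta, ← Polynomial.C_mul_X_pow_eq_monomial, AdjoinRoot.mk_C,
    AdjoinRoot.mk_X]

variable {p q}

theorem two_ne_zero_cubicField (h2 : (2 : K) ≠ 0) : (2 : cubicField p q) ≠ 0 := fun e =>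
  h2 ((algebraMap K (cubicField p q)).injective (by rw [map_ofNat, map_zero]; exact e))

/-- `x - θ` is never zero. -/
theorem sub_theta_ne_zero (x : K) : algebraMap K (cubicField p q) x - theta p q ≠ 0 := fun e => by
  obtain ⟨-, h, -⟩ := coords_zero p q (a := x) (b := -1) (c := 0) (by
    rw [map_neg, map_one, map_zero]; linear_combination e)
  exact one_ne_zero (neg_eq_zero.1 h)

theorem deriv_theta_ne_zero (h3 : (3 : K) ≠ 0) :
    3 * theta p q ^ 2 + algebraMap K _ p ≠ 0 := fun e => by
  obtain ⟨-, -, h⟩ := coords_zero p q (a := p) (b := 0) (c := 3) (by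
    rw [map_zero, map_ofNat]; linear_combination e)
  exact h3 h

/-- The translation of `θ` to the origin. -/
def shiftTheta (p q : K) [Fact (Irreducible (cubicPoly p q))] : VariableChange (cubicField p q) :=
  ⟨1, theta p q, 0, 0⟩

theorem shiftTheta_smul :
    shiftTheta p q • (cubicCurve 0 p q).map (algebraMap K (cubicField p q)) =
      twoCurve (3 * theta p q) (3 * theta p q ^ 2 + algebraMap K _ p) := by
  have h0 := theta_equation p q
  rw [AdjoinRoot.algebraMap_eq] at h0 ⊢
  ext <;> simp [shiftTheta, WeierstrassCurve.map, variableChange_a₁, variableChange_a₂,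
    variableChange_a₃, variableChange_a₄, variableChange_a₆]
  · ring
  · linear_combination h0

/-- The square class of `x - θ`. -/
def thetaClass (h3 : (3 : K) ≠ 0) [(cubicCurve 0 p q).IsElliptic] :
    (cubicCurve 0 p q).toAffine.Point →+
      Additive ((cubicField p q)ˣ ⧸ (powMonoidHom 2 : (cubicField p q)ˣ →* _).range) :=
  haveI : (twoCurve (3 * theta p q) (3 * theta p q ^ 2 + algebraMap K _ p)).IsElliptic :=
    shiftTheta_smul (p := p) (q := q) ▸ (inferInstance :
      (shiftTheta p q • (cubicCurve 0 p q).map (algebraMap K (cubicField p q))).IsElliptic)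
  ((classHom (isParity_sqFun (L := cubicField p q)) sqClass_add_self
      (deriv_theta_ne_zero h3)).comp
    (FA.Frob.vcEquiv (shiftTheta p q) shiftTheta_smul).symm.toAddMonoidHom).comp
      (pointMap (algebraMap K (cubicField p q)) rfl)

theorem thetaClass_some (h3 : (3 : K) ≠ 0) [(cubicCurve 0 p q).IsElliptic]
    {x y : K} (h : (cubicCurve 0 p q).toAffine.Nonsingular x y) :
    thetaClass h3 (.some x y h) = sqFun (cubicField p q) (algebraMap K _ x - theta p q) := by
  haveI : (twoCurve (3 * theta p q) (3 * theta p q ^ 2 + algebraMap K _ p)).IsElliptic :=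
    shiftTheta_smul (p := p) (q := q) ▸ (inferInstance :
      (shiftTheta p q • (cubicCurve 0 p q).map (algebraMap K (cubicField p q))).IsElliptic)
  set φ := algebraMap K (cubicField p q)
  have hmap : ((cubicCurve 0 p q).map φ).toAffine.Nonsingular (φ x) (φ y) :=
    ((cubicCurve 0 p q).toAffine.map_nonsingular φ.injective x y).2 h
  have hn : (twoCurve (3 * theta p q) (3 * theta p q ^ 2 + φ p)).toAffine.Nonsingular
      (φ x - theta p q) (φ y) :=
    Affine.equation_iff_nonsingular.mp (FA.CM.Seven.twoCurve_equation.2 (by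
      have e := congrArg φ (cubicCurve_equation.1 h.1)
      simp only [zero_mul, add_zero, map_add, map_mul, map_pow] at e
      linear_combination e + theta_equation p q))
  have hs : (FA.Frob.vcEquiv (shiftTheta p q) shiftTheta_smul).symm
      (pointMap φ rfl (.some x y h)) = .some (φ x - theta p q) (φ y) hn := by
    rw [AddEquiv.symm_apply_eq, FA.Frob.vcEquiv_some, pointMap_some, Affine.Point.some.injEq]
    simp [FA.Frob.vcX, FA.Frob.vcY, shiftTheta]
  show classFun (sqFun (cubicField p q)) _ _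
    ((FA.Frob.vcEquiv (shiftTheta p q) shiftTheta_smul).symm (pointMap φ rfl (.some x y h))) = _
  rw [hs, classFun_some (sub_theta_ne_zero x)]

/-- **Halving.** -/
theorem exists_half_of_square (h2 : (2 : K) ≠ 0) [(cubicCurve 0 p q).IsElliptic] {x y : K}
    (h : (cubicCurve 0 p q).toAffine.Nonsingular x y) {w : cubicField p q}
    (hw : w ^ 2 = algebraMap K _ x - theta p q) : ∃ R, 2 • R = Affine.Point.some x y h := by
  obtain ⟨c₀, c₁, c₂, rfl⟩ := exists_coords p q w
  set θ := theta p q
  set φ := algebraMap K (cubicField p q)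
  have hθ : θ ^ 3 + φ p * θ + φ q = 0 := theta_equation p q
  have hc₂ : c₂ ≠ 0 := by
    rintro rfl
    rw [map_zero, zero_mul, add_zero] at hw
    obtain ⟨-, e1, e2⟩ := coords_zero p q (a := c₀ ^ 2 - x) (b := 2 * c₀ * c₁ + 1) (c := c₁ ^ 2) (by
      show φ (c₀ ^ 2 - x) + φ (2 * c₀ * c₁ + 1) * θ + φ (c₁ ^ 2) * θ ^ 2 = 0
      simp only [map_sub, map_add, map_mul, map_pow, map_one, map_ofNat]
      linear_combination hw)
    rw [pow_eq_zero_iff two_ne_zero] at e2
    rw [e2, mul_zero, zero_add] at e1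
    exact one_ne_zero e1
  obtain ⟨ξ, rfl⟩ : ∃ ξ, c₁ = c₂ * ξ := ⟨c₁ / c₂, by field_simp⟩
  set u := -c₂ * q - c₀ * ξ
  set v := c₀ - c₂ * p - c₂ * ξ * ξ
  obtain ⟨e0, e1, e2⟩ := coords_zero p q (a := x * ξ ^ 2 - u ^ 2 + q)
      (b := -ξ ^ 2 - 2 * x * ξ - 2 * u * v + p) (c := x + 2 * ξ - v ^ 2) (by
    show φ (x * ξ ^ 2 - u ^ 2 + q) + φ (-ξ ^ 2 - 2 * x * ξ - 2 * u * v + p) * θ +
      φ (x + 2 * ξ - v ^ 2) * θ ^ 2 = 0
    simp only [u, v, map_sub, map_add, map_mul, map_pow, map_neg, map_ofNat] at hw ⊢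
    have key : (φ c₀ + φ c₂ * φ ξ * θ + φ c₂ * θ ^ 2) * (θ - φ ξ) =
        (-φ c₂ * φ q - φ c₀ * φ ξ) + (φ c₀ - φ c₂ * φ p - φ c₂ * φ ξ * φ ξ) * θ := by
      linear_combination φ c₂ * hθ
    linear_combination (-(θ - φ ξ) ^ 2) * hw + ((φ c₀ + φ c₂ * φ ξ * θ + φ c₂ * θ ^ 2) * (θ - φ ξ) +
      ((-φ c₂ * φ q - φ c₀ * φ ξ) + (φ c₀ - φ c₂ * φ p - φ c₂ * φ ξ * φ ξ) * θ)) * key + hθ)
  set η := u + v * ξ
  have heq : η ^ 2 = ξ ^ 3 + p * ξ + q := by
    simp only [η]; linear_combination -e0 - ξ * e1 - ξ ^ 2 * e2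
  have htan : 2 * η * v = 3 * ξ ^ 2 + p := by
    simp only [η]; linear_combination -e1 - 2 * ξ * e2
  have hη : η ≠ 0 := fun e => no_root p q ξ (by rw [← heq, e, zero_pow two_ne_zero])
  have hR : (cubicCurve 0 p q).toAffine.Nonsingular ξ η :=
    Affine.equation_iff_nonsingular.mp (cubicCurve_equation.2 (by rw [heq]; ring))
  have hne : η ≠ (cubicCurve 0 p q).toAffine.negY ξ η := by
    rw [cubicCurve_negY, ne_eq, ← sub_eq_zero, show η - -η = 2 * η by ring]
    exact mul_ne_zero h2 hη
  have hs : (cubicCurve 0 p q).toAffine.slope ξ ξ η η = v := by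
    rw [Affine.slope_of_Y_ne rfl hne, div_eq_iff (sub_ne_zero.2 hne), cubicCurve_negY]
    simp only [zero_mul, mul_zero, sub_zero]
    linear_combination -htan
  have hx : (cubicCurve 0 p q).toAffine.addX ξ ξ v = x := by
    simp only [Affine.addX]
    linear_combination -e2
  obtain ⟨Y, hY, hdouble⟩ : ∃ Y, ∃ hY : (cubicCurve 0 p q).toAffine.Nonsingular x Y,
      2 • Affine.Point.some ξ η hR = .some x Y hY := by
    have hxy : ¬(ξ = ξ ∧ η = (cubicCurve 0 p q).toAffine.negY ξ η) := fun e => hne e.2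
    refine ⟨(cubicCurve 0 p q).toAffine.addY ξ ξ η v, ?_, ?_⟩
    · have := Affine.nonsingular_add hR hR hxy
      rwa [hs, hx] at this
    · rw [two_nsmul, Affine.Point.add_some hxy, Affine.Point.some.injEq]
      exact ⟨by rw [hs, hx], by rw [hs]⟩
  rcases Affine.Y_eq_of_X_eq hY.1 h.1 rfl with e | e
  · subst e; exact ⟨_, hdouble⟩
  · refine ⟨-Affine.Point.some ξ η hR, ?_⟩
    rw [neg_nsmul, hdouble, Affine.Point.neg_some, Affine.Point.some.injEq, e, Affine.negY_negY]
    exact ⟨rfl, rfl⟩

/-- **The kernel of the class consists of doubles.** -/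
theorem exists_half_of_thetaClass (h2 : (2 : K) ≠ 0) (h3 : (3 : K) ≠ 0)
    [(cubicCurve 0 p q).IsElliptic] {P : (cubicCurve 0 p q).toAffine.Point}
    (hP : thetaClass h3 P = 0) : ∃ R, 2 • R = P := by
  rcases P with _ | ⟨x, y, h⟩
  · exact ⟨0, nsmul_zero 2⟩
  rw [thetaClass_some h3 h] at hP
  obtain ⟨w, hw⟩ := isSquare_of_sqFun (sub_theta_ne_zero x) hP
  exact exists_half_of_square h2 h (w := w) (by rw [hw, sq])

end FA.CubicDescentRank
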