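import Fermat.Agent.CubicDescentRank.Halve
import Fermat.Agent.FullTwoTorsionRank.Local
import Fermat.Agent.Curve.Value
import Fermat.Agent.AbTors.JoinField

/-!
# The cubic field over the line

A place of a finite extension of `k(T)` lies over a place of the line and multiplies the orders by a
positive number. The cubic field of `y² = x³ - 27 A x - 54 B` has genus at most `6 m - 2`.
-/

set_option autoImplicit false
set_option linter.unusedSectionVars false
set_option linter.style.haveILetI false

noncomputable section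

universe u

open Polynomial AlgebraicCurve FA.Curve FA.ModField
open FA.FunctionFieldRank (MonicPrime placeWeight ordAt expAt ordAt_algebraMap)
open FA.FullTwoTorsionRank (linPrime weightAt weightAt_some)
open scoped Classical

namespace FA.CubicDescentRank

variable {k : Type u} [Field k] {L : Type u} [Field L] [Algebra k L]
  [Algebra (RatFunc k) L] [IsScalarTower k (RatFunc k) L]

/-- A polynomial as an element of the extension. -/
def polyMap (k L : Type u) [Field k] [Field L] [Algebra (RatFunc k) L] : k[X] →+* L :=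
  (algebraMap (RatFunc k) L).comp (algebraMap k[X] (RatFunc k))

theorem polyMap_C (a : k) : polyMap k L (C a) = algebraMap k L a := by
  rw [polyMap, RingHom.comp_apply, IsScalarTower.algebraMap_apply k (RatFunc k) L,
    IsScalarTower.algebraMap_apply k k[X] (RatFunc k), Polynomial.algebraMap_eq]

theorem polyMap_X : polyMap k L X = algebraMap (RatFunc k) L RatFunc.X := by
  rw [polyMap, RingHom.comp_apply, RatFunc.algebraMap_X]

theorem polyMap_ne_zero {p : k[X]} (hp : p ≠ 0) : polyMap k L p ≠ 0 :=
  (_root_.map_ne_zero (algebraMap (RatFunc k) L)).2 (RatFunc.algebraMap_ne_zero hp)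

/-- Above a finite place. -/
theorem ord_polyMap_finite (w : Place k L) {t : k}
    (ht : AtLeast w 1 (polyMap k L X - algebraMap k L t)) (p : k[X]) (hp : p ≠ 0) :
    w.ord (polyMap k L p) =
      w.ord (polyMap k L X - algebraMap k L t) * (p.rootMultiplicity t : ℤ) := by
  have hkey : ∀ q : k[X], AtLeast w 1 (polyMap k L q - algebraMap k L (q.eval t)) := fun q => by
    obtain ⟨r, hr⟩ : (X - C t) ∣ q - C (q.eval t) := by simp [dvd_iff_isRoot]
    rw [← polyMap_C (L := L), ← map_sub, hr, map_mul, map_sub, polyMap_C]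
    have hXnn : AtLeast w 0 (polyMap k L X) := by
      have h := (ht.mono (m := 0) (by omega)).add (atLeast_algebraMap t)
      rwa [sub_add_cancel] at h
    have hr0 : AtLeast w 0 (polyMap k L r) := by
      clear hr
      induction r using Polynomial.induction_on' with
      | add a b ha hb => rw [map_add]; exact ha.add hb
      | monomial n a =>
        rw [← C_mul_X_pow_eq_monomial, map_mul, map_pow, polyMap_C]
        simpa using (atLeast_pow hXnn n).smul a
    simpa using ht.mul hr0
  obtain ⟨q, hq, hqt⟩ := exists_eq_pow_rootMultiplicity_mul_and_not_dvd p hp t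
  have hq0 : q.eval t ≠ 0 := fun e => hqt (dvd_iff_isRoot.2 e)
  have hqord : w.ord (polyMap k L q) = 0 := by
    have h := ord_add_eq_left (v := w) (f := algebraMap k L (q.eval t))
      (g := polyMap k L q - algebraMap k L (q.eval t))
      ((_root_.map_ne_zero _).2 hq0) (by rw [place_ord_algebraMap]; exact hkey q)
    rw [add_sub_cancel, place_ord_algebraMap] at h
    exact h.2
  have hd : X - C t ≠ 0 := X_sub_C_ne_zero t
  have hqne : q ≠ 0 := fun e => hp (by rw [hq, e, mul_zero])
  conv_lhs => rw [hq]
  rw [map_mul, map_pow, w.ord_mul (pow_ne_zero _ (polyMap_ne_zero hd)) (polyMap_ne_zero hqne),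
    place_ord_pow, hqord, add_zero, map_sub, polyMap_C, mul_comm]

/-- Above infinity. -/
theorem ord_polyMap_infinite (w : Place k L) (hX : w.ord (polyMap k L X) < 0) (p : k[X])
    (hp : p ≠ 0) : w.ord (polyMap k L p) = w.ord (polyMap k L X) * (p.natDegree : ℤ) := by
  set g := polyMap k L X
  have hC : ∀ a : k, a ≠ 0 → ∀ n : ℕ, w.ord (polyMap k L (C a * X ^ n)) = w.ord g * n := fun a ha n => by
    rw [map_mul, map_pow, polyMap_C,
      w.ord_mul ((_root_.map_ne_zero _).2 ha) (pow_ne_zero _ (polyMap_ne_zero X_ne_zero)),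
      place_ord_algebraMap, place_ord_pow]
    ring
  induction hd : p.natDegree using Nat.strong_induction_on generalizing p with
  | _ d ih =>
    subst hd
    conv_lhs => rw [← eraseLead_add_C_mul_X_pow p, add_comm]
    rw [map_add]
    have hlead := hC p.leadingCoeff (leadingCoeff_ne_zero.2 hp) p.natDegree
    refine ((ord_add_eq_left (polyMap_ne_zero (mul_ne_zero (C_ne_zero.2 (leadingCoeff_ne_zero.2 hp))
      (pow_ne_zero _ X_ne_zero))) ?_).2).trans hlead
    rcases eq_or_ne p.eraseLead 0 with he | he
    · rw [he, map_zero]; exact atLeast_zero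
    · have hlt : p.eraseLead.natDegree < p.natDegree := by
        rcases eraseLead_natDegree_lt_or_eraseLead_eq_zero p with h | h
        exacts [h, absurd h he]
      refine Or.inr ?_
      rw [hlead, ih _ hlt _ he rfl]
      have : (p.eraseLead.natDegree : ℤ) + 1 ≤ p.natDegree := by exact_mod_cast hlt
      nlinarith

theorem ord_eq_of_polys (w : Place k L) {e : ℤ} {μ : k[X] → ℤ}
    (h : ∀ p : k[X], p ≠ 0 → w.ord (polyMap k L p) = e * μ p) {z : RatFunc k} (hz : z ≠ 0) :
    w.ord (algebraMap (RatFunc k) L z) = e * (μ z.num - μ z.denom) := by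
  have hz' : algebraMap (RatFunc k) L z * polyMap k L z.denom = polyMap k L z.num := by
    rw [polyMap, RingHom.comp_apply, RingHom.comp_apply, ← map_mul]
    congr 1
    exact (eq_div_iff (RatFunc.algebraMap_ne_zero z.denom_ne_zero)).1 (RatFunc.num_div_denom z).symm
  have he := congrArg w.ord hz'
  rw [w.ord_mul ((_root_.map_ne_zero _).2 hz) (polyMap_ne_zero z.denom_ne_zero),
    h _ z.denom_ne_zero, h _ (RatFunc.num_ne_zero hz)] at he
  rw [mul_sub]
  omega

/-- **The place of the line below a place.** -/
theorem exists_below [IsAlgClosed k] (hF : IsFunctionField k L) (w : Place k L) :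
    ∃ (o : Option k) (e : ℤ), 0 < e ∧ (o = none → e = -w.ord (polyMap k L X)) ∧
      ((∃ t, o = some t) → 0 ≤ w.ord (polyMap k L X)) ∧
      ∀ z : RatFunc k, z ≠ 0 → w.ord (algebraMap (RatFunc k) L z) = e * -weightAt o z := by
  by_cases hX : w.ord (polyMap k L X) < 0
  · refine ⟨none, -w.ord (polyMap k L X), by omega, fun _ => rfl,
      fun ⟨t, ht⟩ => absurd ht (by simp), fun z hz => ?_⟩
    rw [ord_eq_of_polys w (ord_polyMap_infinite w hX) hz]
    simp only [weightAt, Option.map_none, placeWeight, RatFunc.intDegree]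
    ring
  · obtain ⟨t, ht⟩ := exists_hasValue hF (P := w) (f := polyMap k L X) (Or.inr (not_lt.1 hX))
    have ht' : AtLeast w 1 (polyMap k L X - algebraMap k L t) := ht
    have hne : polyMap k L X - algebraMap k L t ≠ 0 := by
      rw [← polyMap_C (L := L), ← map_sub]; exact polyMap_ne_zero (X_sub_C_ne_zero t)
    refine ⟨some t, w.ord (polyMap k L X - algebraMap k L t),
      by have := (atLeast_iff hne).1 ht'; omega, by simp, fun _ => not_lt.1 hX, fun z hz => ?_⟩
    rw [ord_eq_of_polys w (ord_polyMap_finite w ht') hz, weightAt_some, neg_neg, ordAt]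
    simp only [linPrime]
    rw [FA.FunctionFieldRank.rootMultiplicity_eq_expAt (RatFunc.num_ne_zero hz),
      FA.FunctionFieldRank.rootMultiplicity_eq_expAt z.denom_ne_zero]

/-- `k(T)` inside the extension is `k⟮T⟯`, so the degree over it is that over `k(T)`. -/
theorem finrank_adjoin_X :
    Module.finrank (IntermediateField.adjoin k {polyMap k L X}) L =
      Module.finrank (RatFunc k) L := by
  set ι := IsScalarTower.toAlgHom k (RatFunc k) L
  have h : (IntermediateField.adjoin k {(RatFunc.X : RatFunc k)}).map ι =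
      IntermediateField.adjoin k {polyMap k L X} := by
    rw [IntermediateField.adjoin_map, Set.image_singleton, polyMap_X]; rfl
  have hrange : ∀ a : RatFunc k, ι a ∈ IntermediateField.adjoin k {polyMap k L X} := fun a => by
    rw [← h]; exact ⟨a, (RatFunc.adjoin_X (K := k)).symm ▸ IntermediateField.mem_top, rfl⟩
  let i : RatFunc k →+* IntermediateField.adjoin k {polyMap k L X} :=
    ((ι : RatFunc k →+* L).codRestrict _ hrange)
  have hi : Function.Bijective i := by
    refine ⟨fun a b e => (algebraMap (RatFunc k) L).injective (congrArg Subtype.val e), fun b => ?_⟩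
    obtain ⟨a, -, ha⟩ : (b : L) ∈ (IntermediateField.adjoin k {(RatFunc.X : RatFunc k)}).map ι := by
      rw [h]; exact b.2
    exact ⟨a, Subtype.ext ha⟩
  exact (Algebra.finrank_eq_of_equiv_equiv (RingEquiv.ofBijective i hi) (RingEquiv.refl L)
    (by ext a; rfl)).symm

theorem transcendental_polyMap_X : Transcendental k (polyMap k L X) := fun h => by
  rw [polyMap_X] at h
  exact RatFunc.transcendental_X ((isAlgebraic_algebraMap_iff (algebraMap (RatFunc k) L).injective).1 h)

variable (k) in
/-- The coefficient `-27 A`. -/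
def pCoef (A : k[X]) : RatFunc k := algebraMap k[X] (RatFunc k) (-27 * A)

variable (k) in
/-- The coefficient `-54 B`. -/
def qCoef (B : k[X]) : RatFunc k := algebraMap k[X] (RatFunc k) (-54 * B)

variable {A B : k[X]} {m : ℕ}

/-- The weight of `θ` at a place below. -/
def twoShift (m : ℕ) : Option k → ℤ
  | some _ => 0
  | none => -(m : ℤ)

theorem natDegree_num_mul (n : ℕ) [NeZero (n : k)] (p : k[X]) :
    (-(n : k[X]) * p).natDegree = p.natDegree := by
  rw [neg_mul, natDegree_neg, ← Polynomial.C_eq_natCast, natDegree_C_mul (NeZero.ne (n : k))]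

theorem weightAt_le {o : Option k} {g : k[X]} {d : ℕ} (hg : g.natDegree ≤ d * m) :
    (d : ℤ) * twoShift m o ≤ -weightAt o (algebraMap k[X] (RatFunc k) g) := by
  cases o with
  | some t => rw [weightAt_some, ordAt_algebraMap, neg_neg]; simp [twoShift]
  | none =>
    simp only [weightAt, Option.map_none, placeWeight, RatFunc.intDegree_polynomial, twoShift]
    have : (g.natDegree : ℤ) ≤ (d : ℤ) * m := by exact_mod_cast hg
    linarith

variable {w : Place k L} {o : Option k} {e : ℤ}

theorem atLeast_coef (he : 0 < e)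
    (hord : ∀ z : RatFunc k, z ≠ 0 → w.ord (algebraMap (RatFunc k) L z) = e * -weightAt o z)
    {g : k[X]} {d : ℕ} (hg : g.natDegree ≤ d * m) :
    AtLeast w (e * (d * twoShift m o)) (algebraMap (RatFunc k) L (algebraMap k[X] _ g)) := by
  rcases eq_or_ne g 0 with rfl | hg0
  · simp only [map_zero]; exact atLeast_zero
  · refine Or.inr ?_
    rw [hord _ (RatFunc.algebraMap_ne_zero hg0)]
    exact mul_le_mul_of_nonneg_left (weightAt_le hg) he.le

/-- An element of `k(T)` of order above `e c` has order at least `e (c + 1)`. -/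
theorem atLeast_jump (he : 0 < e)
    (hord : ∀ z : RatFunc k, z ≠ 0 → w.ord (algebraMap (RatFunc k) L z) = e * -weightAt o z)
    {z : RatFunc k} {c : ℤ} (h : AtLeast w (e * c + 1) (algebraMap (RatFunc k) L z)) :
    AtLeast w (e * (c + 1)) (algebraMap (RatFunc k) L z) := by
  rcases eq_or_ne z 0 with rfl | hz
  · rw [map_zero]; exact atLeast_zero
  · rw [atLeast_iff ((_root_.map_ne_zero _).2 hz), hord z hz] at h
    refine Or.inr ?_
    rw [hord z hz]
    refine mul_le_mul_of_nonneg_left ?_ he.le
    have : c < -weightAt o z := lt_of_mul_lt_mul_left (by omega : e * c < e * -weightAt o z) he.le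
    omega

/-- The root of a cubic with small coefficients is small. -/
theorem atLeast_root {θ a b : L} {σ : ℤ} (ha : AtLeast w (2 * σ) a) (hb : AtLeast w (3 * σ) b)
    (h : θ ^ 3 + a * θ + b = 0) : AtLeast w σ θ := by
  by_contra hn
  rw [AtLeast, not_or, not_le] at hn
  obtain ⟨h0, hlt⟩ := hn
  have hg : AtLeast w (w.ord (θ ^ 3) + 1) (a * θ + b) := by
    rw [place_ord_pow]
    refine AtLeast.add ((ha.mul (atLeast_ord θ)).mono ?_) (hb.mono ?_) <;> omega
  exact (ord_add_eq_left (pow_ne_zero 3 h0) hg).1 (by rw [← add_assoc]; exact h)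

variable [CharZero k] [Fact (Irreducible (cubicPoly (pCoef k A) (qCoef k B)))]

theorem atLeast_theta {w : Place k (cubicField (pCoef k A) (qCoef k B))} (he : 0 < e)
    (hord : ∀ z : RatFunc k, z ≠ 0 →
      w.ord (algebraMap (RatFunc k) (cubicField (pCoef k A) (qCoef k B)) z) = e * -weightAt o z)
    (hA : A.natDegree ≤ 4 * m) (hB : B.natDegree ≤ 6 * m) :
    AtLeast w (e * (2 * twoShift m o)) (theta (pCoef k A) (qCoef k B)) := by
  haveI : NeZero ((27 : ℕ) : k) := ⟨by norm_num⟩
  haveI : NeZero ((54 : ℕ) : k) := ⟨by norm_num⟩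
  refine atLeast_root ?_ ?_ (theta_equation (pCoef k A) (qCoef k B))
  · have h := atLeast_coef (L := cubicField (pCoef k A) (qCoef k B)) (m := m) he hord
      (g := -27 * A) (d := 4) (by exact_mod_cast (natDegree_num_mul 27 A).le.trans hA)
    exact h.mono (le_of_eq (by push_cast; ring))
  · have h := atLeast_coef (L := cubicField (pCoef k A) (qCoef k B)) (m := m) he hord
      (g := -54 * B) (d := 6) (by exact_mod_cast (natDegree_num_mul 54 B).le.trans hB)
    exact h.mono (le_of_eq (by push_cast; ring))

theorem isFunctionField_cubicField : IsFunctionField k (cubicField (pCoef k A) (qCoef k B)) :=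
  FA.AbTors.isFunctionField_of_finite_ratFunc

/-- **The genus of the cubic field.** -/
theorem genus_le [IsAlgClosed k] (hA : A.natDegree ≤ 4 * m) (hB : B.natDegree ≤ 6 * m) :
    genus k (cubicField (pCoef k A) (qCoef k B)) + 2 ≤ 6 * m := by
  set L := cubicField (pCoef k A) (qCoef k B)
  set θ : L := theta (pCoef k A) (qCoef k B)
  set τ : L := polyMap k L X with hτ
  have hF : IsFunctionField k L := isFunctionField_cubicField
  have hτt : Transcendental k τ := transcendental_polyMap_X
  set D := poleDiv hF τ
  have hdeg : Divisor.degree D ≤ 3 := by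
    refine (degree_poleDiv_le hF hτt).trans (le_of_eq ?_)
    rw [hτ, finrank_adjoin_X, finrank_cubicField]
    rfl
  have hdeg1 : 1 ≤ Divisor.degree D := by
    rw [degree_poleDiv hF hτt]
    haveI := hF.finiteDimensional hτt
    exact_mod_cast Module.finrank_pos
  obtain ⟨c, hc⟩ := exists_threshold hF
  obtain ⟨n, hn, hnc⟩ : ∃ n : ℕ, 4 * m ≤ n ∧ c ≤ (n : ℤ) := ⟨4 * m + c.toNat, by omega, by omega⟩
  let I := Σ j : Fin 3, Fin (n + 1 - 2 * m * (j : ℕ))
  let u : I → L := fun i => τ ^ (i.2 : ℕ) * θ ^ (i.1 : ℕ)
  have hu : LinearIndependent k u := by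
    have hX : LinearIndependent k fun i : ℕ => (algebraMap k[X] (RatFunc k) X) ^ i := by
      have h := (Polynomial.basisMonomials k).linearIndependent.map'
        (IsScalarTower.toAlgHom k k[X] (RatFunc k)).toLinearMap
        (LinearMap.ker_eq_bot.2 (RatFunc.algebraMap_injective k))
      have e : (fun i : ℕ => (algebraMap k[X] (RatFunc k) X) ^ i) =
          ⇑(IsScalarTower.toAlgHom k k[X] (RatFunc k)).toLinearMap ∘ ⇑(basisMonomials k) := by
        funext i
        simp [Polynomial.coe_basisMonomials, ← X_pow_eq_monomial]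
      rw [e]
      exact h
    have hθ : LinearIndependent (RatFunc k) fun j : Fin 3 => θ ^ (j : ℕ) :=
      Fintype.linearIndependent_iff.2 fun g hg => by
        rw [Fin.sum_univ_three] at hg
        obtain ⟨h0, h1, h2⟩ := coords_zero (pCoef k A) (qCoef k B) (a := g 0) (b := g 1) (c := g 2)
          (by simp only [Algebra.smul_def, Fin.val_zero, Fin.val_one, Fin.val_two, pow_zero, mul_one,
                pow_one] at hg
              exact hg)
        intro j
        fin_cases j
        exacts [h0, h1, h2]
    have h := (linearIndependent_smul hX hθ).comp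
      (fun i : I => ((i.2 : ℕ), i.1)) (fun ⟨j, a⟩ ⟨j', a'⟩ h => by
        simp only [Prod.mk.injEq] at h
        obtain ⟨h, rfl⟩ := h
        rw [Fin.ext h])
    convert h using 1
    funext i
    simp [u, τ, polyMap, Algebra.smul_def]
  have hmem : ∀ i, u i ∈ riemannRochSpace (n • D) := by
    rintro ⟨j, a⟩
    rw [mem_riemannRochSpace]
    intro v
    obtain ⟨o, e, he, hnone, hsome, hord⟩ := exists_below hF v
    have hθ := atLeast_theta he hord hA hB
    rw [Finsupp.smul_apply, poleDiv_apply, nsmul_eq_mul]
    cases o with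
    | some t =>
      have h0 : 0 ≤ v.ord τ := hsome ⟨t, rfl⟩
      rw [max_eq_left (by omega), mul_zero, neg_zero]
      simp only [twoShift, mul_zero] at hθ
      simpa using (atLeast_pow (Or.inr h0 : AtLeast v 0 τ) (a : ℕ)).mul (atLeast_pow hθ (j : ℕ))
    | none =>
      have hτe : e = -v.ord τ := hnone rfl
      rw [← hτe, max_eq_right he.le]
      refine ((atLeast_pow (Or.inr (by rw [hτe, neg_neg]) : AtLeast v (-e) τ) (a : ℕ)).mul
        (atLeast_pow hθ (j : ℕ))).mono ?_
      have hij : ((a : ℕ) : ℤ) + 2 * m * (j : ℕ) ≤ n := by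
        have := a.2
        exact_mod_cast (by omega : (a : ℕ) + 2 * m * (j : ℕ) ≤ n)
      simp only [twoShift]
      nlinarith
  haveI := finite_riemannRochSpace hF (n • D)
  have hcard := card_le_finrank hu hmem
  have hsum : Fintype.card I = (n + 1) + (n + 1 - 2 * m) + (n + 1 - 4 * m) := by
    simp only [I, Fintype.card_sigma, Fintype.card_fin, Fin.sum_univ_three, Fin.val_zero, Fin.val_one,
      Fin.val_two, mul_zero, Nat.sub_zero, mul_one]
    rw [show 2 * m * 2 = 4 * m by ring]
  have hRR := hc (n • D) (by rw [map_nsmul, nsmul_eq_mul]; nlinarith)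
  rw [ell, map_nsmul, nsmul_eq_mul] at hRR
  have h3 : (n : ℤ) * Divisor.degree D ≤ n * 3 := mul_le_mul_of_nonneg_left hdeg (Int.natCast_nonneg n)
  show genus k L + 2 ≤ 6 * m
  omega

end FA.CubicDescentRank
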